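import Mathlib

/-!
# The reciprocity law of the Dedekind sums

`s h k = ∑_{r mod k} ((r / k)) ((h r / k))` with the sawtooth function `((x))`. For coprime
`h, k ≥ 1` we have `s h k + s k h = -1/4 + (h / k + k / h + 1 / (h k)) / 12` (Dedekind 1892):
`reciprocity`.
-/

set_option autoImplicit false

namespace Fermat.Agent.Cor.Ded

open Finset

/-- The sawtooth function: `0` at the integers, `x - ⌊x⌋ - 1/2` otherwise. -/
def saw (x : ℚ) : ℚ := if Int.fract x = 0 then 0 else Int.fract x - 1 / 2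

/-- The Dedekind sum. -/
def s (h k : ℕ) : ℚ := ∑ r ∈ range k, saw ((r : ℚ) / k) * saw (((h * r : ℕ) : ℚ) / k)

variable {h k : ℕ}

/-- The residues of `h r`, `r < k`, are a permutation of the `r < k`. -/
theorem sum_mod (hk : 0 < k) (hc : h.Coprime k) (f : ℕ → ℚ) :
    ∑ r ∈ range k, f (h * r % k) = ∑ r ∈ range k, f r := by
  have hmap : ∀ r ∈ range k, h * r % k ∈ range k := fun r _ => mem_range.2 (Nat.mod_lt _ hk)
  have hinj : Set.InjOn (fun r => h * r % k) (range k : Set ℕ) := by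
    intro a ha b hb hab
    rw [mem_coe, mem_range] at ha hb
    have h1 : h * a ≡ h * b [MOD k] := hab
    have h2 : a ≡ b [MOD k] := Nat.ModEq.cancel_left_of_coprime (by rwa [Nat.coprime_comm] at hc) h1
    rwa [Nat.ModEq, Nat.mod_eq_of_lt ha, Nat.mod_eq_of_lt hb] at h2
  have hsurj : Set.SurjOn (fun r => h * r % k) (range k : Set ℕ) (range k : Set ℕ) :=
    Finset.surjOn_of_injOn_of_card_le _ hmap hinj le_rfl
  exact Finset.sum_nbij (fun r => h * r % k) hmap hinj hsurj (fun _ _ => rfl)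

theorem mod_ne_zero (hc : h.Coprime k) {r : ℕ} (hr0 : 0 < r) (hr : r < k) : h * r % k ≠ 0 := by
  intro h0
  have h1 : k ∣ h * r := Nat.dvd_of_mod_eq_zero h0
  have h2 : k ∣ r := (Nat.Coprime.dvd_of_dvd_mul_left (Nat.coprime_comm.1 hc) h1)
  exact absurd (Nat.le_of_dvd hr0 h2) (by omega)

theorem sum_range_id_rat (k : ℕ) : ∑ r ∈ range k, (r : ℚ) = k * (k - 1) / 2 := by
  induction k with
  | zero => simp
  | succ k ih => rw [sum_range_succ, ih]; push_cast; ring

theorem sum_range_sq_rat (k : ℕ) :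
    ∑ r ∈ range k, (r : ℚ) ^ 2 = k * (k - 1) * (2 * k - 1) / 6 := by
  induction k with
  | zero => simp
  | succ k ih => rw [sum_range_succ, ih]; push_cast; ring

/-- `T h k = ∑_{r < k} r ⌊h r / k⌋`. -/
def T (h k : ℕ) : ℚ := ∑ r ∈ range k, (r : ℚ) * ((h * r / k : ℕ) : ℚ)

theorem mod_eq (h k r : ℕ) : ((h * r % k : ℕ) : ℚ) = h * r - k * ((h * r / k : ℕ) : ℚ) := by
  have := Nat.mod_add_div (h * r) k
  have h2 : ((h * r % k : ℕ) : ℚ) + k * ((h * r / k : ℕ) : ℚ) = h * r := by exact_mod_cast this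
  linarith

/-- The Dedekind sum in terms of `T`. -/
theorem s_eq (hk : 0 < k) (hc : h.Coprime k) :
    s h k = h * ((k : ℚ) * (k - 1) * (2 * k - 1) / 6) / k ^ 2 - T h k / k - (k - 1) / 4 := by
  have hk' : (k : ℚ) ≠ 0 := by exact_mod_cast hk.ne'
  have h1 : s h k = ∑ r ∈ range k, (((r : ℚ) / k - 1 / 2) * (((h * r % k : ℕ) : ℚ) / k - 1 / 2) -
      if r = 0 then 1 / 4 else 0) := by
    rw [s]
    refine Finset.sum_congr rfl (fun r hr => ?_)
    rw [mem_range] at hr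
    rw [saw, saw, Int.fract_div_natCast_eq_div_natCast_mod,
      Int.fract_div_natCast_eq_div_natCast_mod, Nat.mod_eq_of_lt hr]
    rcases Nat.eq_zero_or_pos r with rfl | hr0
    · simp
      norm_num
    · have h2 : ((r : ℕ) : ℚ) / k ≠ 0 := div_ne_zero (by exact_mod_cast hr0.ne') hk'
      have h3 : ((h * r % k : ℕ) : ℚ) / k ≠ 0 :=
        div_ne_zero (by exact_mod_cast mod_ne_zero hc hr0 hr) hk'
      rw [if_neg h2, if_neg h3, if_neg hr0.ne', sub_zero]
  have h2 : ∑ r ∈ range k, ((h * r % k : ℕ) : ℚ) = k * (k - 1) / 2 := by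
    rw [sum_mod hk hc (fun x => (x : ℚ)), sum_range_id_rat]
  have h3 : ∑ r ∈ range k, (r : ℚ) * ((h * r % k : ℕ) : ℚ) =
      h * (k * (k - 1) * (2 * k - 1) / 6) - k * T h k := by
    rw [← sum_range_sq_rat, T, Finset.mul_sum, Finset.mul_sum, ← Finset.sum_sub_distrib]
    refine Finset.sum_congr rfl (fun r _ => ?_)
    rw [mod_eq]
    ring
  have h4 : ∑ r ∈ range k, (if r = 0 then (1 / 4 : ℚ) else 0) = 1 / 4 := by
    rw [Finset.sum_ite_eq' (range k) 0 (fun _ => (1 / 4 : ℚ)), if_pos (mem_range.2 hk)]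
  have h5 : ∑ r ∈ range k, (((r : ℚ) / k - 1 / 2) * (((h * r % k : ℕ) : ℚ) / k - 1 / 2)) =
      (∑ r ∈ range k, (r : ℚ) * ((h * r % k : ℕ) : ℚ)) / k ^ 2 -
        (∑ r ∈ range k, (r : ℚ)) / (2 * k) - (∑ r ∈ range k, ((h * r % k : ℕ) : ℚ)) / (2 * k) +
          k / 4 := by
    have h6 : (k : ℚ) / 4 = ∑ _r ∈ range k, (1 / 4 : ℚ) := by
      rw [Finset.sum_const, card_range, nsmul_eq_mul]; ring
    rw [h6, Finset.sum_div, Finset.sum_div, Finset.sum_div, ← Finset.sum_sub_distrib,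
      ← Finset.sum_sub_distrib, ← Finset.sum_add_distrib]
    refine Finset.sum_congr rfl (fun r _ => ?_)
    field_simp
    ring
  rw [h1, Finset.sum_sub_distrib, h4, h5, h3, h2, sum_range_id_rat]
  field_simp
  ring

/-- The sum of the squares of the residues. -/
theorem sum_sq (hk : 0 < k) (hc : h.Coprime k) :
    ((h : ℚ) ^ 2 - 1) * (k * (k - 1) * (2 * k - 1) / 6) - 2 * h * k * T h k +
      k ^ 2 * ∑ r ∈ range k, ((h * r / k : ℕ) : ℚ) ^ 2 = 0 := by
  have h1 : ∑ r ∈ range k, ((h * r % k : ℕ) : ℚ) ^ 2 = k * (k - 1) * (2 * k - 1) / 6 := by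
    rw [sum_mod hk hc (fun x => (x : ℚ) ^ 2), sum_range_sq_rat]
  have h2 : ∑ r ∈ range k, ((h * r % k : ℕ) : ℚ) ^ 2 = (h : ℚ) ^ 2 * ∑ r ∈ range k, (r : ℚ) ^ 2 -
      2 * h * k * T h k + k ^ 2 * ∑ r ∈ range k, ((h * r / k : ℕ) : ℚ) ^ 2 := by
    rw [T, Finset.mul_sum, Finset.mul_sum, Finset.mul_sum, ← Finset.sum_sub_distrib,
      ← Finset.sum_add_distrib]
    refine Finset.sum_congr rfl (fun r _ => ?_)
    rw [mod_eq]
    ring
  rw [sum_range_sq_rat, h1] at h2
  linarith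

theorem sum_quot (hk : 0 < k) (hc : h.Coprime k) :
    ∑ r ∈ range k, ((h * r / k : ℕ) : ℚ) = (h - 1) * (k - 1) / 2 := by
  have hk' : (k : ℚ) ≠ 0 := by exact_mod_cast hk.ne'
  have h1 : ∑ r ∈ range k, ((h * r % k : ℕ) : ℚ) = k * (k - 1) / 2 := by
    rw [sum_mod hk hc (fun x => (x : ℚ)), sum_range_id_rat]
  have h2 : ∑ r ∈ range k, ((h * r % k : ℕ) : ℚ) = h * ∑ r ∈ range k, (r : ℚ) -
      k * ∑ r ∈ range k, ((h * r / k : ℕ) : ℚ) := by
    rw [Finset.mul_sum, Finset.mul_sum, ← Finset.sum_sub_distrib]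
    exact Finset.sum_congr rfl (fun r _ => mod_eq h k r)
  rw [h1, sum_range_id_rat] at h2
  have h3 : (k : ℚ) * ∑ r ∈ range k, ((h * r / k : ℕ) : ℚ) = k * ((h - 1) * (k - 1) / 2) := by
    linarith
  exact mul_left_cancel₀ hk' h3

/-- Counting lattice points. -/
theorem count (hh : 0 < h) (hk : 0 < k) (hc : h.Coprime k) :
    ∑ r ∈ range k, (((h * r / k : ℕ) : ℚ) ^ 2 + ((h * r / k : ℕ) : ℚ)) =
      (k - 1) * h * (h - 1) - 2 * T k h := by
  have h1 : ∀ r ∈ range k, ((h * r / k : ℕ) : ℚ) ^ 2 + ((h * r / k : ℕ) : ℚ) =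
      ∑ ν ∈ range h, if ν ≤ h * r / k then 2 * (ν : ℚ) else 0 := by
    intro r hr
    rw [mem_range] at hr
    have hq : h * r / k < h := by
      rw [Nat.div_lt_iff_lt_mul hk]
      exact Nat.mul_lt_mul_of_pos_left hr hh
    rw [← Finset.sum_filter]
    have h2 : (range h).filter (fun ν => ν ≤ h * r / k) = range (h * r / k + 1) := by
      ext ν
      rw [mem_filter, mem_range, mem_range]
      omega
    rw [h2, ← Finset.mul_sum, sum_range_id_rat]
    push_cast
    ring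
  rw [Finset.sum_congr rfl h1, Finset.sum_comm]
  have h2 : ∀ ν ∈ range h, (∑ r ∈ range k, if ν ≤ h * r / k then 2 * (ν : ℚ) else 0) =
      2 * (ν : ℚ) * (k - 1) - 2 * ((ν : ℚ) * ((k * ν / h : ℕ) : ℚ)) := by
    intro ν hν
    rw [mem_range] at hν
    rcases Nat.eq_zero_or_pos ν with rfl | hν0
    · simp
    · rw [← Finset.sum_filter, Finset.sum_const]
      have hlt : k * ν / h < k := by
        rw [Nat.div_lt_iff_lt_mul hh]
        exact Nat.mul_lt_mul_of_pos_left hν hk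
      have h3 : (range k).filter (fun r => ν ≤ h * r / k) = Ico (k * ν / h + 1) k := by
        ext r
        rw [mem_filter, mem_range, mem_Ico, Nat.le_div_iff_mul_le hk, Nat.succ_le_iff,
          Nat.div_lt_iff_lt_mul hh]
        have hne : ν * k ≠ h * r := by
          intro h4
          have h5 : h ∣ ν * k := ⟨r, h4⟩
          have h6 : h ∣ ν := Nat.Coprime.dvd_of_dvd_mul_right hc h5
          exact absurd (Nat.le_of_dvd hν0 h6) (by omega)
        rw [mul_comm k ν, mul_comm r h]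
        constructor
        · rintro ⟨h4, h5⟩
          exact ⟨lt_of_le_of_ne h5 hne, h4⟩
        · rintro ⟨h4, h5⟩
          exact ⟨h5, h4.le⟩
      rw [h3, Nat.card_Ico, nsmul_eq_mul, Nat.cast_sub (by omega)]
      push_cast
      ring
  rw [Finset.sum_congr rfl h2, Finset.sum_sub_distrib, ← Finset.mul_sum, ← Finset.sum_mul,
    ← Finset.mul_sum, sum_range_id_rat, T]
  ring

/-- **Dedekind's reciprocity law** (1892) for the Dedekind sums. -/
theorem reciprocity (hh : 0 < h) (hk : 0 < k) (hc : h.Coprime k) :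
    s h k + s k h = -1 / 4 + ((h : ℚ) / k + k / h + 1 / (h * k)) / 12 := by
  have hh' : (h : ℚ) ≠ 0 := by exact_mod_cast hh.ne'
  have hk' : (k : ℚ) ≠ 0 := by exact_mod_cast hk.ne'
  have h1 := sum_sq hk hc
  have h2 := count hh hk hc
  rw [Finset.sum_add_distrib, sum_quot hk hc] at h2
  have h3 : ∑ r ∈ range k, ((h * r / k : ℕ) : ℚ) ^ 2 =
      (k - 1) * h * (h - 1) - 2 * T k h - (h - 1) * (k - 1) / 2 := by linarith
  rw [h3] at h1
  have h4 : T h k / k + T k h / h = (((h : ℚ) ^ 2 - 1) * (k * (k - 1) * (2 * k - 1) / 6) +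
      k ^ 2 * ((k - 1) * h * (h - 1) - (h - 1) * (k - 1) / 2)) / (2 * h * k ^ 2) := by
    have h6 : (T h k / k + T k h / h) * (2 * h * k ^ 2) =
        2 * h * k * T h k + 2 * k ^ 2 * T k h := by
      field_simp
    rw [eq_div_iff (by positivity), h6]
    linarith
  rw [s_eq hk hc, s_eq hh (Nat.coprime_comm.1 hc)]
  have h5 : T h k / k = (((h : ℚ) ^ 2 - 1) * (k * (k - 1) * (2 * k - 1) / 6) +
      k ^ 2 * ((k - 1) * h * (h - 1) - (h - 1) * (k - 1) / 2)) / (2 * h * k ^ 2) - T k h / h := by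
    linarith
  rw [h5]
  field_simp
  ring

end Fermat.Agent.Cor.Ded
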